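/-
Layer D (helper8): elementary facts on the prelude's inertia subgroups
`ValuationSubring.inertiaSubgroupIn`: membership criterion and behaviour under conjugation.
-/
import Mathlib
import Fermat.Prelude.Def_FLTPrelim_Ramification

set_option autoImplicit false

namespace Fermat.Agent.CFT.Bridge.Inertia

open scoped Pointwise

variable (K : Type*) {L : Type*} [Field K] [Field L] [Algebra K L]

/-- Membership in the inertia subgroup: `τ` stabilises `A` and acts trivially on the residue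
field. -/
theorem mem_inertiaSubgroupIn_iff {A : ValuationSubring L} {τ : L ≃ₐ[K] L} :
    τ ∈ A.inertiaSubgroupIn K ↔ τ • A = A ∧ ∀ x ∈ A, τ x - x ∈ A.nonunits := by
  constructor
  · rintro ⟨g, hg, rfl⟩
    refine ⟨g.2, fun x hx => ?_⟩
    have h1 : g • (IsLocalRing.residue A ⟨x, hx⟩) = IsLocalRing.residue A ⟨x, hx⟩ :=
      RingEquiv.congr_fun (MonoidHom.mem_ker.mp hg) (IsLocalRing.residue A ⟨x, hx⟩)
    rw [← IsLocalRing.ResidueField.residue_smul, ← sub_eq_zero, ← map_sub,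
      IsLocalRing.residue_eq_zero_iff] at h1
    exact ValuationSubring.coe_mem_nonunits_iff.mpr h1
  · rintro ⟨hτA, hτ⟩
    have hmem : τ ∈ A.decompositionSubgroup K := MulAction.mem_stabilizer_iff.2 hτA
    refine ⟨⟨τ, hmem⟩, ?_, rfl⟩
    change (⟨τ, hmem⟩ : A.decompositionSubgroup K) ∈ MonoidHom.ker
      (MulSemiringAction.toRingAut (A.decompositionSubgroup K) (IsLocalRing.ResidueField A))
    rw [MonoidHom.mem_ker]
    ext y
    obtain ⟨a, rfl⟩ := IsLocalRing.residue_surjective y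
    change (⟨τ, hmem⟩ : A.decompositionSubgroup K) • IsLocalRing.residue A a =
      IsLocalRing.residue A a
    rw [← IsLocalRing.ResidueField.residue_smul, ← sub_eq_zero, ← map_sub,
      IsLocalRing.residue_eq_zero_iff]
    exact ValuationSubring.coe_mem_nonunits_iff.mp (hτ a.1 a.2)

theorem mem_smul_iff {A : ValuationSubring L} (σ : L ≃ₐ[K] L) (x : L) :
    x ∈ σ • A ↔ σ⁻¹ x ∈ A :=
  ValuationSubring.mem_pointwise_smul_iff_inv_smul_mem

theorem mem_nonunits_smul_iff {A : ValuationSubring L} (σ : L ≃ₐ[K] L) (x : L) :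
    x ∈ (σ • A).nonunits ↔ σ⁻¹ x ∈ A.nonunits := by
  rw [ValuationSubring.mem_nonunits_iff_or, ValuationSubring.mem_nonunits_iff_or, mem_smul_iff,
    map_inv₀, EmbeddingLike.map_eq_zero_iff]

/-- Valuation subrings over `q` are permuted by the Galois group. -/
theorem liesOverPrime_smul {A : ValuationSubring L} {q : ℕ} (hA : A.LiesOverPrime q)
    (σ : L ≃ₐ[K] L) : (σ • A).LiesOverPrime q := by
  unfold ValuationSubring.LiesOverPrime at hA ⊢
  rw [mem_nonunits_smul_iff, map_natCast]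
  exact hA

/-- Conjugation carries the inertia subgroup of `A` to that of `σ • A`. -/
theorem conj_mem_inertiaSubgroupIn {A : ValuationSubring L} {τ : L ≃ₐ[K] L}
    (hτ : τ ∈ A.inertiaSubgroupIn K) (σ : L ≃ₐ[K] L) :
    σ * τ * σ⁻¹ ∈ (σ • A).inertiaSubgroupIn K := by
  rw [mem_inertiaSubgroupIn_iff] at hτ ⊢
  obtain ⟨hτA, hτ⟩ := hτ
  refine ⟨?_, fun x hx => ?_⟩
  · rw [mul_smul, mul_smul, inv_smul_smul, hτA]
  · rw [mem_smul_iff] at hx
    rw [mem_nonunits_smul_iff]
    have := hτ _ hx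
    have h2 : σ⁻¹ ((σ * τ * σ⁻¹) x - x) = τ (σ⁻¹ x) - σ⁻¹ x := by
      rw [map_sub]
      congr 1
      change σ⁻¹ (σ (τ (σ⁻¹ x))) = _
      exact (AlgEquiv.symm_apply_apply σ _)
    rw [h2]
    exact this

/-- The conjugate of the inertia subgroup of `σ⁻¹ • A` is contained in that of `A`; in the form
used for normal closures. -/
theorem inertiaSubgroupIn_le_conj {A : ValuationSubring L} (σ : L ≃ₐ[K] L)
    {H : Subgroup (L ≃ₐ[K] L)} (h : (σ⁻¹ • A).inertiaSubgroupIn K ≤ H) :
    A.inertiaSubgroupIn K ≤ H.map (MulAut.conj σ).toMonoidHom := by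
  intro τ hτ
  have h1 := conj_mem_inertiaSubgroupIn K hτ σ⁻¹
  refine ⟨σ⁻¹ * τ * σ⁻¹⁻¹, h h1, ?_⟩
  simp [MulAut.conj_apply, mul_assoc]

end Fermat.Agent.CFT.Bridge.Inertia
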