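/-
Layer D (helper8): the level families on `Gal(ℚ̄/ℚ)` and on the prelude's local groups, and the
dictionary between the prelude's level-constancy predicates and `LC.IsLC₁` / `LC.IsLC₂`.
-/
import Fermat.Prelude.Def_GroupCohomology_ContinuousUnramified
import Fermat.Agent.CFT.LC.LowDegree
import Fermat.Agent.CFT.LC.Restrict
import Fermat.Agent.CFT.Bridge.Inertia

set_option autoImplicit false

namespace Fermat.Agent.CFT.Bridge

open groupCohomology ExtCitation Fermat.Agent.CFT.LC IntermediateField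

local instance isAlgebraicQbar_br : Algebra.IsAlgebraic ℚ (AlgebraicClosure ℚ) :=
  AlgebraicClosure.isAlgebraic ℚ
local instance isAlgClosureQbar_br : IsAlgClosure ℚ (AlgebraicClosure ℚ) :=
  ⟨inferInstance, inferInstance⟩
local instance normalQbar_br : Normal ℚ (AlgebraicClosure ℚ) :=
  IsAlgClosure.normal ℚ (AlgebraicClosure ℚ)

/-- The algebraic closure of `ℚ` used by the prelude. -/
abbrev Qbar : Type := AlgebraicClosure ℚ

/-- The absolute Galois group of `ℚ` used by the prelude. -/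
abbrev GQ : Type := Qbar ≃ₐ[ℚ] Qbar

/-! ### Normal cores of fixing subgroups -/

lemma mem_fixingSubgroup_iSup {ι : Type*} (F : ι → IntermediateField ℚ Qbar) (τ : GQ) :
    τ ∈ (⨆ i, F i).fixingSubgroup ↔ ∀ i, τ ∈ (F i).fixingSubgroup := by
  have key : ∀ K : IntermediateField ℚ Qbar,
      τ ∈ K.fixingSubgroup ↔ K ≤ fixedField (Subgroup.zpowers τ) := fun K => by
    rw [IntermediateField.le_iff_le, Subgroup.zpowers_le]
  rw [key, iSup_le_iff]
  exact forall_congr' fun i => (key (F i)).symm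

lemma mem_fixingSubgroup_map_iff (F : IntermediateField ℚ Qbar) (σ τ : GQ) :
    τ ∈ (F.map (σ : Qbar →ₐ[ℚ] Qbar)).fixingSubgroup ↔ σ⁻¹ * τ * σ ∈ F.fixingSubgroup := by
  rw [IntermediateField.mem_fixingSubgroup_iff, IntermediateField.mem_fixingSubgroup_iff]
  constructor
  · intro h x hx
    have := h (σ x) ⟨x, hx, rfl⟩
    change σ⁻¹ (τ (σ x)) = x
    rw [this]
    exact AlgEquiv.symm_apply_apply σ x
  · rintro h _ ⟨x, hx, rfl⟩
    have := h x hx
    change σ⁻¹ (τ (σ x)) = x at this
    have h2 := congrArg σ this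
    rwa [show σ (σ⁻¹ (τ (σ x))) = τ (σ x) from AlgEquiv.apply_symm_apply σ _] at h2

/-- The normal closure of `F` in `ℚ̄`, as the compositum of its conjugates. -/
noncomputable def nc (F : IntermediateField ℚ Qbar) : IntermediateField ℚ Qbar :=
  ⨆ σ : GQ, F.map (σ : Qbar →ₐ[ℚ] Qbar)

lemma le_nc (F : IntermediateField ℚ Qbar) : F ≤ nc F := by
  refine le_trans ?_ (le_iSup (fun σ : GQ => F.map (σ : Qbar →ₐ[ℚ] Qbar)) 1)
  intro x hx
  exact ⟨x, hx, rfl⟩

lemma finiteDimensional_nc (F : IntermediateField ℚ Qbar) [FiniteDimensional ℚ F] :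
    FiniteDimensional ℚ (nc F) := by
  have h1 := normalClosure_def'' (F := ℚ) (L := Qbar) F
  unfold nc
  rw [← h1]
  exact normalClosure.is_finiteDimensional ℚ F Qbar

/-- The fixing subgroup of the normal closure is the normal core of the fixing subgroup. -/
lemma mem_fixingSubgroup_nc_iff (F : IntermediateField ℚ Qbar) (τ : GQ) :
    τ ∈ (nc F).fixingSubgroup ↔ ∀ σ : GQ, σ⁻¹ * τ * σ ∈ F.fixingSubgroup := by
  unfold nc
  rw [mem_fixingSubgroup_iSup]
  exact forall_congr' fun σ => mem_fixingSubgroup_map_iff F σ τ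

lemma normal_fixingSubgroup_nc (F : IntermediateField ℚ Qbar) :
    (nc F).fixingSubgroup.Normal := by
  refine ⟨fun τ hτ g => ?_⟩
  rw [mem_fixingSubgroup_nc_iff] at hτ ⊢
  intro σ
  have := hτ (g⁻¹ * σ)
  simpa [mul_assoc] using this

/-- The normal closure of a field unramified outside `S` is unramified outside `S`. -/
lemma isUnramifiedOutside_nc {S : Finset Nat.Primes} {F : IntermediateField ℚ Qbar}
    (hF : F.IsUnramifiedOutside S) : (nc F).IsUnramifiedOutside S := by
  have := hF.1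
  refine ⟨finiteDimensional_nc F, fun q hq A hA τ hτ => ?_⟩
  rw [mem_fixingSubgroup_nc_iff]
  intro σ
  have h1 := Inertia.conj_mem_inertiaSubgroupIn ℚ hτ σ⁻¹
  rw [inv_inv] at h1
  exact hF.2 q hq _ (Inertia.liesOverPrime_smul ℚ hA σ⁻¹) h1

lemma finiteIndex_fixingSubgroup (F : IntermediateField ℚ Qbar) [FiniteDimensional ℚ F] :
    F.fixingSubgroup.FiniteIndex := by
  have : Finite (GQ ⧸ F.fixingSubgroup) :=
    Subgroup.quotient_finite_of_isOpen _ F.fixingSubgroup_isOpen
  exact Subgroup.finiteIndex_of_finite_quotient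

/-! ### The global level family -/

/-- The levels of `G_{ℚ,S}`: normal fixing subgroups of finite extensions unramified outside
`S`. -/
noncomputable def levelsS (S : Finset Nat.Primes) : Levels GQ where
  sets := {U | U.Normal ∧ ∃ F : IntermediateField ℚ Qbar, F.IsUnramifiedOutside S ∧
    F.fixingSubgroup = U}
  nonempty := ⟨⊤, inferInstance, ⊥, IntermediateField.isUnramifiedOutside_bot S,
    IntermediateField.fixingSubgroup_bot⟩
  directed := by
    rintro U ⟨hU, F, hF, rfl⟩ V ⟨hV, F', hF', rfl⟩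
    refine ⟨F.fixingSubgroup ⊓ F'.fixingSubgroup, ⟨inferInstance, F ⊔ F', hF.sup hF', ?_⟩, le_rfl⟩
    exact IntermediateField.fixingSubgroup_sup
  normal := fun _ hU => hU.1

instance (S : Finset Nat.Primes) : (levelsS S).IsFin where
  finiteIndex := by
    rintro U ⟨_, F, hF, rfl⟩
    have := hF.1
    exact finiteIndex_fixingSubgroup F

/-- Every field unramified outside `S` contains the fixed field of a level. -/
lemma exists_level_le {S : Finset Nat.Primes} {F : IntermediateField ℚ Qbar}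
    (hF : F.IsUnramifiedOutside S) : ∃ U ∈ (levelsS S).sets, U ≤ F.fixingSubgroup :=
  ⟨_, ⟨normal_fixingSubgroup_nc F, _, isUnramifiedOutside_nc hF, rfl⟩,
    IntermediateField.fixingSubgroup_antitone (le_nc F)⟩

/-! ### The family of all finite levels, and its pull-backs to local groups -/

/-- All open normal subgroups of `Gal(ℚ̄/ℚ)`: normal fixing subgroups of finite extensions. -/
noncomputable def levelsAll : Levels GQ where
  sets := {U | U.Normal ∧ ∃ F : IntermediateField ℚ Qbar, FiniteDimensional ℚ F ∧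
    F.fixingSubgroup = U}
  nonempty := ⟨⊤, inferInstance, ⊥, inferInstance, IntermediateField.fixingSubgroup_bot⟩
  directed := by
    rintro U ⟨hU, F, hF, rfl⟩ V ⟨hV, F', hF', rfl⟩
    refine ⟨F.fixingSubgroup ⊓ F'.fixingSubgroup,
      ⟨inferInstance, F ⊔ F', IntermediateField.finiteDimensional_sup F F', ?_⟩, le_rfl⟩
    exact IntermediateField.fixingSubgroup_sup
  normal := fun _ hU => hU.1

instance : levelsAll.IsFin where
  finiteIndex := by
    rintro U ⟨_, F, hF, rfl⟩
    exact finiteIndex_fixingSubgroup F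

/-- Every finite extension contains the fixed field of a level. -/
lemma exists_levelAll_le (F : IntermediateField ℚ Qbar) [FiniteDimensional ℚ F] :
    ∃ U ∈ levelsAll.sets, U ≤ F.fixingSubgroup :=
  ⟨_, ⟨normal_fixingSubgroup_nc F, _, finiteDimensional_nc F, rfl⟩,
    IntermediateField.fixingSubgroup_antitone (le_nc F)⟩

lemma levelsS_refines_levelsAll (S : Finset Nat.Primes) : levelsAll.Refines (levelsS S) := by
  rintro U ⟨hU, F, hF, rfl⟩
  exact ⟨_, ⟨hU, F, hF.1, rfl⟩, le_rfl⟩

/-- The level family on a group mapping to `Gal(ℚ̄/ℚ)` used by the prelude's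
`IsLevelConstant₁`, `IsLevelConstant₂`. -/
noncomputable def levelsOf {H : Type} [Group H] (r : H →* GQ) : Levels H := levelsAll.comap r

instance {H : Type} [Group H] (r : H →* GQ) : (levelsOf r).IsFin :=
  inferInstanceAs (levelsAll.comap r).IsFin

/-! ### Modules on which a level acts trivially -/

section Trivial

variable {k : Type} [CommRing k] (M : Rep k GQ)

/-- A finitely generated smooth module is fixed pointwise by the fixing subgroup of a finite
extension. -/
lemma exists_finite_fixing [Module.Finite k M]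
    (hsm : ∀ m : M, ∃ F : IntermediateField ℚ Qbar, FiniteDimensional ℚ F ∧
      ∀ s ∈ F.fixingSubgroup, M.ρ s m = m) :
    ∃ F : IntermediateField ℚ Qbar, FiniteDimensional ℚ F ∧
      ∀ s ∈ F.fixingSubgroup, ∀ m : M, M.ρ s m = m := by
  classical
  obtain ⟨T, hT⟩ := (Module.Finite.fg_top : (⊤ : Submodule k M).FG)
  choose F hFfin hFfix using hsm
  have hfin : ∀ T' : Finset M, ∃ F₀ : IntermediateField ℚ Qbar, FiniteDimensional ℚ F₀ ∧
      ∀ m ∈ T', F m ≤ F₀ := by
    intro T'
    induction T' using Finset.induction_on with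
    | empty => exact ⟨⊥, inferInstance, by simp⟩
    | insert a T' _ ih =>
      obtain ⟨F₀, hF₀, hle⟩ := ih
      have := hF₀
      have := hFfin a
      refine ⟨F a ⊔ F₀, IntermediateField.finiteDimensional_sup _ _, fun m hm => ?_⟩
      rcases Finset.mem_insert.1 hm with rfl | hm
      · exact le_sup_left
      · exact (hle m hm).trans le_sup_right
  obtain ⟨F₀, hF₀, hle⟩ := hfin T
  refine ⟨F₀, hF₀, fun s hs m => ?_⟩
  have hm : m ∈ Submodule.span k (T : Set M) := hT ▸ Submodule.mem_top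
  induction hm using Submodule.span_induction with
  | mem x hx => exact hFfix x s (IntermediateField.fixingSubgroup_antitone (hle x hx) hs)
  | zero => exact map_zero _
  | add x y _ _ hx hy => rw [map_add, hx, hy]
  | smul c x _ hx => rw [map_smul, hx]

/-- For a finitely generated smooth module unramified outside `S`, the kernel of the action is a
level of `G_{ℚ,S}`. -/
lemma ker_mem_levelsS (S : Finset Nat.Primes) [Module.Finite k M]
    (hsm : ∀ m : M, ∃ F : IntermediateField ℚ Qbar, FiniteDimensional ℚ F ∧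
      ∀ s ∈ F.fixingSubgroup, M.ρ s m = m)
    (hMur : ∀ q : Nat.Primes, q ∉ S → ∀ A : ValuationSubring Qbar,
      A.LiesOverPrime (q : ℕ) → ∀ g ∈ A.inertiaSubgroupIn ℚ, M.ρ g = 1) :
    (MonoidHom.ker M.ρ) ∈ (levelsS S).sets := by
  obtain ⟨F₀, hF₀, hfix⟩ := exists_finite_fixing M hsm
  have := hF₀
  have hle : F₀.fixingSubgroup ≤ MonoidHom.ker M.ρ := fun s hs => by
    rw [MonoidHom.mem_ker]
    ext m
    exact hfix s hs m
  have hopen : IsOpen ((MonoidHom.ker M.ρ : Subgroup GQ) : Set GQ) :=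
    Subgroup.isOpen_mono hle F₀.fixingSubgroup_isOpen
  have hclosed : IsClosed ((MonoidHom.ker M.ρ : Subgroup GQ) : Set GQ) :=
    Subgroup.isClosed_of_isOpen _ hopen
  set F := IntermediateField.fixedField (MonoidHom.ker M.ρ) with hF
  have hFfix : F.fixingSubgroup = MonoidHom.ker M.ρ :=
    InfiniteGalois.fixingSubgroup_fixedField ⟨MonoidHom.ker M.ρ, hclosed⟩
  have hFle : F ≤ F₀ := by
    rw [← InfiniteGalois.fixedField_fixingSubgroup F₀]
    exact IntermediateField.fixedField_antitone hle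
  have hFfin : FiniteDimensional ℚ F :=
    FiniteDimensional.of_injective (IntermediateField.inclusion hFle).toLinearMap
      (IntermediateField.inclusion_injective hFle)
  refine ⟨inferInstance, F, ⟨hFfin, fun q hq A hA g hg => ?_⟩, hFfix⟩
  rw [hFfix, MonoidHom.mem_ker]
  exact hMur q hq A hA g hg

end Trivial

/-! ### Dictionary with the prelude's level-constancy predicates -/

section Dictionary

variable {k : Type} [CommRing k]

/-- Global dictionary in degree 1. -/
lemma isLevelConstantS₁_iff (S : Finset Nat.Primes) (M : Rep k GQ) {U₀ : Subgroup GQ}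
    (hU₀ : U₀ ∈ (levelsS S).sets) (htriv : ∀ s ∈ U₀, ∀ m : M, M.ρ s m = m) (f : GQ → M) :
    IsLevelConstantS₁ S f ↔ IsLC₁ (levelsS S) M f := by
  constructor
  · rintro ⟨F, hF, h⟩
    obtain ⟨U₁, hU₁, hle⟩ := exists_level_le hF
    obtain ⟨W, hW, hWle⟩ := (levelsS S).directed U₁ hU₁ U₀ hU₀
    exact ⟨W, hW, fun g s hs => h g s (hle ((hWle.trans inf_le_left) hs)),
      fun g s hs => htriv s ((hWle.trans inf_le_right) hs) _⟩
  · rintro ⟨U, ⟨_, F, hF, rfl⟩, h⟩
    exact ⟨F, hF, fun g s hs => h.1 g s hs⟩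

/-- Global dictionary in degree 2. -/
lemma isLevelConstantS₂_iff (S : Finset Nat.Primes) (M : Rep k GQ) {U₀ : Subgroup GQ}
    (hU₀ : U₀ ∈ (levelsS S).sets) (htriv : ∀ s ∈ U₀, ∀ m : M, M.ρ s m = m) (f : GQ × GQ → M) :
    IsLevelConstantS₂ S f ↔ IsLC₂ (levelsS S) M f := by
  constructor
  · rintro ⟨F, hF, h⟩
    obtain ⟨U₁, hU₁, hle⟩ := exists_level_le hF
    obtain ⟨W, hW, hWle⟩ := (levelsS S).directed U₁ hU₁ U₀ hU₀
    exact ⟨W, hW, fun g g' s hs s' hs' => h g g' s s' (hle ((hWle.trans inf_le_left) hs))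
      (hle ((hWle.trans inf_le_left) hs')),
      fun g s hs => htriv s ((hWle.trans inf_le_right) hs) _⟩
  · rintro ⟨U, ⟨_, F, hF, rfl⟩, h⟩
    exact ⟨F, hF, fun g g' s s' hs hs' => h.1 g g' s hs s' hs'⟩

variable {H : Type} [Group H] (r : H →* GQ)

/-- Local dictionary in degree 1. -/
lemma isLevelConstant₁_iff (M : Rep k GQ) {U₀ : Subgroup GQ}
    (hU₀ : U₀ ∈ levelsAll.sets) (htriv : ∀ s ∈ U₀, ∀ m : M, M.ρ s m = m) (f : H → M) :
    IsLevelConstant₁ r f ↔ IsLC₁ (levelsOf r) (Rep.res r M) f := by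
  constructor
  · rintro ⟨F, hF, h⟩
    have := hF
    obtain ⟨U₁, hU₁, hle⟩ := exists_levelAll_le F
    obtain ⟨W, hW, hWle⟩ := levelsAll.directed U₁ hU₁ U₀ hU₀
    exact ⟨_, Levels.mem_comap_sets hW, fun g s hs => h g s (hle ((hWle.trans inf_le_left) hs)),
      fun g s hs => htriv (r s) ((hWle.trans inf_le_right) hs) _⟩
  · rintro ⟨_, ⟨U, ⟨_, F, hF, rfl⟩, rfl⟩, h⟩
    exact ⟨F, hF, fun g s hs => h.1 g s hs⟩

/-- Local dictionary in degree 2. -/
lemma isLevelConstant₂_iff (M : Rep k GQ) {U₀ : Subgroup GQ}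
    (hU₀ : U₀ ∈ levelsAll.sets) (htriv : ∀ s ∈ U₀, ∀ m : M, M.ρ s m = m) (f : H × H → M) :
    IsLevelConstant₂ r f ↔ IsLC₂ (levelsOf r) (Rep.res r M) f := by
  constructor
  · rintro ⟨F, hF, h⟩
    have := hF
    obtain ⟨U₁, hU₁, hle⟩ := exists_levelAll_le F
    obtain ⟨W, hW, hWle⟩ := levelsAll.directed U₁ hU₁ U₀ hU₀
    exact ⟨_, Levels.mem_comap_sets hW,
      fun g g' s hs s' hs' => h g g' s s' (hle ((hWle.trans inf_le_left) hs))
        (hle ((hWle.trans inf_le_left) hs')),
      fun g s hs => htriv (r s) ((hWle.trans inf_le_right) hs) _⟩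
  · rintro ⟨_, ⟨U, ⟨_, F, hF, rfl⟩, rfl⟩, h⟩
    exact ⟨F, hF, fun g g' s s' hs hs' => h.1 g g' s hs s' hs'⟩

end Dictionary

end Fermat.Agent.CFT.Bridge
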