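/-
Layer D (helper8), D3-global: the prelude's `continuousH2S S M` and `continuousH2 r (res r M)`
are the degree-2 level-constant cohomology groups for the level families `levelsS S` and
`levelsOf r`, and the prelude's localisation map `locRes₂S` is `LC.map`.
-/
import Fermat.Agent.CFT.Bridge.Levels

set_option autoImplicit false

namespace Fermat.Agent.CFT.Bridge

open groupCohomology ExtCitation Fermat.Agent.CFT.LC CategoryTheory

variable {k : Type} [CommRing k]

/-! ### Global side -/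

section Global

variable (S : Finset Nat.Primes) (M : Rep k GQ) {U₀ : Subgroup GQ}
  (hU₀ : U₀ ∈ (levelsS S).sets) (htriv : ∀ s ∈ U₀, ∀ m : M, M.ρ s m = m)

include hU₀ htriv

lemma levelCochainsS₁_eq : levelCochainsS₁ S M = cochains₁ (levelsS S) M := by
  ext f
  rw [mem_levelCochainsS₁_iff, mem_cochains₁_iff]
  exact isLevelConstantS₁_iff S M hU₀ htriv f

lemma levelCochainsS₂_eq : levelCochainsS₂ S M = cochains₂ (levelsS S) M := by
  ext f
  rw [mem_levelCochainsS₂_iff, mem_cochains₂_iff]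
  exact isLevelConstantS₂_iff S M hU₀ htriv f

lemma levelCocyclesS₂_eq : levelCocyclesS₂ S M = Z₂ (levelsS S) M := by
  rw [levelCocyclesS₂, Z₂, levelCochainsS₂_eq S M hU₀ htriv]

lemma levelCoboundariesS₂_eq : levelCoboundariesS₂ S M = B₂ (levelsS S) M := by
  rw [levelCoboundariesS₂, B₂, levelCochainsS₁_eq S M hU₀ htriv]

/-- The class map from the prelude's level cocycles to level-constant cohomology. -/
noncomputable def h2SClass : ↥(levelCocyclesS₂ S M) →ₗ[k] H (levelsS S) M 2 :=
  H2π' (levelsS S) M ∘ₗ Submodule.inclusion (le_of_eq (levelCocyclesS₂_eq S M hU₀ htriv))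

lemma h2SClass_apply (f : ↥(levelCocyclesS₂ S M)) :
    h2SClass S M hU₀ htriv f =
      H2π' (levelsS S) M ⟨f.1, (levelCocyclesS₂_eq S M hU₀ htriv) ▸ f.2⟩ := rfl

lemma h2SClass_surjective : Function.Surjective (h2SClass S M hU₀ htriv) := by
  intro x
  obtain ⟨f, rfl⟩ := H2π'_surjective (levelsS S) M x
  exact ⟨⟨f.1, (levelCocyclesS₂_eq S M hU₀ htriv).symm ▸ f.2⟩, rfl⟩

lemma ker_h2SClass : LinearMap.ker (h2SClass S M hU₀ htriv) =
    (levelCoboundariesS₂ S M).comap (levelCocyclesS₂ S M).subtype := by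
  ext f
  rw [LinearMap.mem_ker, h2SClass_apply, H2π'_eq_zero_iff, Submodule.mem_comap,
    levelCoboundariesS₂_eq S M hU₀ htriv]
  rfl

/-- **The prelude's `continuousH2S S M` is `H²` of the level-constant complex.** -/
noncomputable def h2SEquiv : continuousH2S S M ≃ₗ[k] H (levelsS S) M 2 :=
  (Submodule.quotEquivOfEq _ _ (ker_h2SClass S M hU₀ htriv).symm).trans
    ((h2SClass S M hU₀ htriv).quotKerEquivOfSurjective (h2SClass_surjective S M hU₀ htriv))

lemma h2SEquiv_mk (f : ↥(levelCocyclesS₂ S M)) :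
    h2SEquiv S M hU₀ htriv (continuousH2Sπ S M f) = h2SClass S M hU₀ htriv f := rfl

end Global

/-! ### Local side -/

section Local

variable {Γ : Type} [Group Γ] (r : Γ →* GQ) (M : Rep k GQ) {U₀ : Subgroup GQ}
  (hU₀ : U₀ ∈ levelsAll.sets) (htriv : ∀ s ∈ U₀, ∀ m : M, M.ρ s m = m)

include hU₀ htriv

lemma levelCochains₁_eq :
    levelCochains₁ r (Rep.res r M) = cochains₁ (levelsOf r) (Rep.res r M) := by
  ext f
  rw [mem_levelCochains₁_iff, mem_cochains₁_iff]
  exact isLevelConstant₁_iff r M hU₀ htriv f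

lemma levelCochains₂_eq :
    levelCochains₂ r (Rep.res r M) = cochains₂ (levelsOf r) (Rep.res r M) := by
  ext f
  rw [mem_levelCochains₂_iff, mem_cochains₂_iff]
  exact isLevelConstant₂_iff r M hU₀ htriv f

lemma levelCocycles₂_eq :
    levelCocycles₂ r (Rep.res r M) = Z₂ (levelsOf r) (Rep.res r M) := by
  rw [levelCocycles₂, Z₂, levelCochains₂_eq r M hU₀ htriv]

lemma levelCoboundaries₂_eq :
    levelCoboundaries₂ r (Rep.res r M) = B₂ (levelsOf r) (Rep.res r M) := by
  rw [levelCoboundaries₂, B₂, levelCochains₁_eq r M hU₀ htriv]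

/-- The class map from the prelude's local level cocycles to level-constant cohomology. -/
noncomputable def h2LocClass :
    ↥(levelCocycles₂ r (Rep.res r M)) →ₗ[k] H (levelsOf r) (Rep.res r M) 2 :=
  H2π' (levelsOf r) (Rep.res r M) ∘ₗ
    Submodule.inclusion (le_of_eq (levelCocycles₂_eq r M hU₀ htriv))

lemma h2LocClass_apply (f : ↥(levelCocycles₂ r (Rep.res r M))) :
    h2LocClass r M hU₀ htriv f =
      H2π' (levelsOf r) (Rep.res r M) ⟨f.1, (levelCocycles₂_eq r M hU₀ htriv) ▸ f.2⟩ := rfl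

lemma h2LocClass_surjective : Function.Surjective (h2LocClass r M hU₀ htriv) := by
  intro x
  obtain ⟨f, rfl⟩ := H2π'_surjective (levelsOf r) (Rep.res r M) x
  exact ⟨⟨f.1, (levelCocycles₂_eq r M hU₀ htriv).symm ▸ f.2⟩, rfl⟩

lemma ker_h2LocClass : LinearMap.ker (h2LocClass r M hU₀ htriv) =
    (levelCoboundaries₂ r (Rep.res r M)).comap (levelCocycles₂ r (Rep.res r M)).subtype := by
  ext f
  rw [LinearMap.mem_ker, h2LocClass_apply, H2π'_eq_zero_iff, Submodule.mem_comap,
    levelCoboundaries₂_eq r M hU₀ htriv]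
  rfl

/-- **The prelude's local `continuousH2 r (res r M)` is `H²` of the level-constant complex.** -/
noncomputable def h2LocEquiv :
    continuousH2 r (Rep.res r M) ≃ₗ[k] H (levelsOf r) (Rep.res r M) 2 :=
  (Submodule.quotEquivOfEq _ _ (ker_h2LocClass r M hU₀ htriv).symm).trans
    ((h2LocClass r M hU₀ htriv).quotKerEquivOfSurjective (h2LocClass_surjective r M hU₀ htriv))

lemma h2LocEquiv_mk (f : ↥(levelCocycles₂ r (Rep.res r M))) :
    h2LocEquiv r M hU₀ htriv (continuousH2π r (Rep.res r M) f) = h2LocClass r M hU₀ htriv f :=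
  rfl

end Local

/-! ### Localisation -/

section Localisation

variable (S : Finset Nat.Primes) {Γ : Type} [Group Γ] (r : Γ →* GQ)

/-- `r` is continuous for the families `levelsOf r` and `levelsS S`. -/
lemma continuous_levelsOf : Levels.Continuous r (levelsOf r) (levelsS S) := by
  intro U hU
  obtain ⟨V, hV, hVU⟩ := levelsS_refines_levelsAll S U hU
  exact ⟨V.comap r, Levels.mem_comap_sets hV, Subgroup.comap_mono hVU⟩

variable (M : Rep k GQ) {U₀ : Subgroup GQ}
  (hU₀ : U₀ ∈ (levelsS S).sets) (htriv : ∀ s ∈ U₀, ∀ m : M, M.ρ s m = m)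

/-- A level of `levelsS S` is a level of `levelsAll`. -/
lemma mem_levelsAll_of_mem_levelsS {U : Subgroup GQ} (hU : U ∈ (levelsS S).sets) :
    U ∈ levelsAll.sets := by
  obtain ⟨hN, F, hF, rfl⟩ := hU
  exact ⟨hN, F, hF.1, rfl⟩

/-- **The prelude's localisation map `locRes₂S` is `LC.map`.** -/
theorem h2LocEquiv_locRes₂S (x : continuousH2S S M) :
    h2LocEquiv r M (mem_levelsAll_of_mem_levelsS S hU₀) htriv (locRes₂S S M r x) =
      map (A := M) (B := Rep.res r M) (continuous_levelsOf S r) (𝟙 _) 2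
        (h2SEquiv S M hU₀ htriv x) := by
  obtain ⟨f, rfl⟩ := Submodule.mkQ_surjective _ x
  change h2LocEquiv r M _ htriv (continuousH2π r (Rep.res r M) _) = _
  rw [h2LocEquiv_mk]
  change _ = map (A := M) (B := Rep.res r M) (continuous_levelsOf S r) (𝟙 _) 2
    (h2SClass S M hU₀ htriv f)
  rw [h2LocClass_apply, h2SClass_apply]
  change Hπ _ _ 2 _ = map (A := M) (B := Rep.res r M) (continuous_levelsOf S r) (𝟙 _) 2
    (Hπ _ _ 2 _)
  rw [map_Hπ]
  congr 1

end Localisation

end Fermat.Agent.CFT.Bridge
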