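/-
Layer D (helper8), D3-global: the archimedean place is invisible for coefficients on which `2`
is invertible.  The prelude's archimedean local group is `⟨c⟩`, `c` the complex conjugation;
its level family `levelsOf archimedeanLoc` contains the trivial subgroup, hence level-constant
cohomology is the abstract cohomology of a group of order `2`, which vanishes in positive
degrees when `2` is invertible.
-/
import Fermat.Agent.CFT.Bridge.GlobalH2
import Fermat.Agent.CFT.Cup.Classes
import Fermat.Agent.CFT.A1.Torsion

set_option autoImplicit false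

namespace Fermat.Agent.CFT.Bridge

open groupCohomology ExtCitation Fermat.Agent.CFT.LC CategoryTheory CategoryTheory.Limits

/-! ### A general vanishing criterion -/

section General

universe u

variable {k G : Type u} [CommRing k] [Group G]

/-- If the trivial subgroup is a level, every cochain is level-constant. -/
lemma isLC_of_bot_mem {𝒰 : Levels G} (hbot : (⊥ : Subgroup G) ∈ 𝒰.sets) (A : Rep.{u} k G)
    {n : ℕ} (f : (Fin n → G) → A) : IsLC 𝒰 A f := by
  refine ⟨⊥, hbot, fun g u hu => ?_, fun g s hs => ?_⟩
  · have : u = 1 := funext fun i => Subgroup.mem_bot.1 (hu i)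
    rw [this, mul_one]
  · rw [Subgroup.mem_bot.1 hs, map_one]
    rfl

/-- If the trivial subgroup is a level, level-constant cohomology vanishes as soon as abstract
cohomology does. -/
lemma isZero_H_of_bot_mem {𝒰 : Levels G} (hbot : (⊥ : Subgroup G) ∈ 𝒰.sets) (A : Rep.{u} k G)
    (n : ℕ) (h : IsZero (groupCohomology A (n + 1))) : IsZero (H 𝒰 A (n + 1)) := by
  rw [ModuleCat.isZero_iff_subsingleton]
  refine ⟨fun x y => ?_⟩
  suffices h0 : ∀ z : H 𝒰 A (n + 1), z = 0 by rw [h0 x, h0 y]
  intro z
  obtain ⟨c, rfl⟩ := Hπ_surjective 𝒰 A (n + 1) z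
  rw [Hπ_eq_zero_iff_succ]
  have hc : Cup.dF A (n + 1) c.1.1 = 0 := (mem_cocyclesLC_iff 𝒰 A c.1).1 c.2
  have hsub := (ModuleCat.isZero_iff_subsingleton).1 h
  have h1 : Cup.cls A (n + 1) ⟨c.1.1, Cup.mem_Z.2 hc⟩ = 0 := Subsingleton.elim _ _
  obtain ⟨y, hy⟩ := (Cup.cls_eq_zero_iff_succ A n _).1 h1
  exact ⟨⟨y, isLC_of_bot_mem hbot A y⟩, Subtype.ext hy⟩

end General

/-! ### The complex conjugation -/

section Conj

lemma exists_sq_eq_neg_one : ∃ x : Qbar, x ^ 2 = -1 :=
  IsAlgClosed.exists_pow_nat_eq (-1 : Qbar) (by norm_num)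

lemma complexConjugation_apply_ne {x : Qbar} (hx : x ^ 2 = -1) : complexConjugation x ≠ x := by
  intro h
  have h1 := complexEmbedding_complexConjugation x
  rw [h] at h1
  obtain ⟨r, hr⟩ := Complex.conj_eq_iff_real.1 h1.symm
  have h2 : (complexEmbedding x) ^ 2 = -1 := by
    rw [← map_pow, hx, map_neg, map_one]
  rw [hr] at h2
  have h3 : ((r ^ 2 : ℝ) : ℂ) = ((-1 : ℝ) : ℂ) := by
    push_cast
    exact h2
  have h4 : r ^ 2 = -1 := Complex.ofReal_injective h3
  nlinarith [sq_nonneg r]

lemma mem_archimedeanDecomposition {s : GQ} (hs : s ∈ archimedeanDecomposition) :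
    s = 1 ∨ s = complexConjugation := by
  obtain ⟨n, rfl⟩ := Subgroup.mem_zpowers_iff.1 hs
  rcases Int.even_or_odd' n with ⟨m, rfl | rfl⟩
  · left
    rw [zpow_mul, zpow_ofNat, complexConjugation_sq, one_zpow]
  · right
    rw [zpow_add, zpow_mul, zpow_ofNat, complexConjugation_sq, one_zpow, one_mul, zpow_one]

/-- The trivial subgroup is a level of the archimedean local group. -/
lemma bot_mem_levelsOf_archimedeanLoc :
    (⊥ : Subgroup ↥archimedeanDecomposition) ∈ (levelsOf archimedeanLoc).sets := by
  obtain ⟨x, hx⟩ := exists_sq_eq_neg_one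
  have halg : Algebra.IsAlgebraic ℚ Qbar := AlgebraicClosure.isAlgebraic ℚ
  have hint : IsIntegral ℚ x := (halg.isAlgebraic x).isIntegral
  have hfin : FiniteDimensional ℚ (IntermediateField.adjoin ℚ {x}) :=
    IntermediateField.adjoin.finiteDimensional hint
  refine ⟨(nc (IntermediateField.adjoin ℚ {x})).fixingSubgroup,
    ⟨normal_fixingSubgroup_nc _, _, finiteDimensional_nc _, rfl⟩, ?_⟩
  ext s
  rw [Subgroup.mem_comap, Subgroup.mem_bot]
  constructor
  · intro hs
    have hs' : (s : GQ) ∈ (IntermediateField.adjoin ℚ {x}).fixingSubgroup :=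
      IntermediateField.fixingSubgroup_antitone (le_nc _) hs
    have hfix : (s : GQ) x = x :=
      (IntermediateField.mem_fixingSubgroup_iff _ _).1 hs' x
        (IntermediateField.mem_adjoin_simple_self ℚ x)
    rcases mem_archimedeanDecomposition s.2 with h | h
    · exact Subtype.ext h
    · rw [h] at hfix
      exact absurd hfix (complexConjugation_apply_ne hx)
  · rintro rfl
    exact Subgroup.one_mem _

instance : Finite ↥archimedeanDecomposition := by
  have : (archimedeanDecomposition : Set GQ) ⊆ {1, complexConjugation} := fun s hs => by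
    rcases mem_archimedeanDecomposition hs with h | h
    · exact Or.inl h
    · exact Or.inr h
  exact (Set.Finite.subset (Set.toFinite _) this).to_subtype

lemma card_archimedeanDecomposition_dvd : Nat.card ↥archimedeanDecomposition ∣ 2 := by
  have h : Nat.card ↥archimedeanDecomposition = orderOf complexConjugation := by
    rw [archimedeanDecomposition]
    exact Nat.card_zpowers complexConjugation
  rw [h]
  exact orderOf_dvd_of_pow_eq_one complexConjugation_sq

end Conj

/-! ### Vanishing at the archimedean place -/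

section Vanishing

variable {k : Type} [CommRing k]

/-- Level-constant cohomology of the archimedean local group vanishes in positive degrees when
`2` is invertible in the coefficient ring. -/
theorem isZero_H_archimedean (h2 : IsUnit (2 : k)) (N : Rep.{0} k ↥archimedeanDecomposition)
    (n : ℕ) :
    IsZero (H (levelsOf archimedeanLoc) N (n + 1)) := by
  refine isZero_H_of_bot_mem bot_mem_levelsOf_archimedeanLoc N n ?_
  refine Fermat.Agent.CFT.A1.isZero_of_isIso_card_smul N ?_ n
  have hu : IsUnit ((Nat.card ↥archimedeanDecomposition : ℕ) : k) := by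
    obtain ⟨m, hm⟩ := card_archimedeanDecomposition_dvd
    have h2' : ((Nat.card ↥archimedeanDecomposition : ℕ) : k) * (m : k) = 2 := by
      rw [← Nat.cast_mul, ← hm]
      norm_num
    exact isUnit_of_mul_isUnit_left (h2' ▸ h2)
  obtain ⟨u, hu⟩ := hu
  refine ⟨⟨((u⁻¹ : kˣ) : k) • 𝟙 N, ?_, ?_⟩⟩
  · rw [← hu, Linear.smul_comp, Linear.comp_smul, Category.comp_id, smul_smul, Units.mul_inv,
      one_smul]
  · rw [← hu, Linear.smul_comp, Linear.comp_smul, Category.comp_id, smul_smul, Units.inv_mul,
      one_smul]

end Vanishing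

end Fermat.Agent.CFT.Bridge
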