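/-
Layer D (helper8), D3-global: the mod `p` cyclotomic character is smooth and unramified outside
`p`; consequently the Tate dual `M.dualTwist (cycloChar p)` of a finite smooth module unramified
outside `S ∋ p` is again finite, smooth and unramified outside `S`.
-/
import Fermat.Agent.CFT.Bridge.Levels
import Fermat.Agent.CFT.Bridge.Inertia
import Fermat.Prelude.Def_ExtCitation_KummerBridge

set_option autoImplicit false

namespace Fermat.Agent.CFT.Bridge

open ExtCitation

variable (p : ℕ) [Fact p.Prime]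

/-- A primitive `p`-th root of unity in `Qbar`. -/
lemma exists_isPrimitiveRoot_Qbar : ∃ ζ : Qbar, IsPrimitiveRoot ζ p := by
  have : NeZero (p : ℚ) := ⟨Nat.cast_ne_zero.2 (Fact.out : p.Prime).ne_zero⟩
  exact HasEnoughRootsOfUnity.exists_primitiveRoot Qbar p

/-- An automorphism fixing a primitive `p`-th root of unity has trivial cyclotomic character. -/
lemma cycloChar_eq_one_of_fixes {ζ : Qbar} (hζ : IsPrimitiveRoot ζ p) (σ : GQ)
    (h : σ ζ = ζ) : cycloChar p σ = 1 := by
  have : NeZero p := ⟨(Fact.out : p.Prime).ne_zero⟩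
  have h1 : Fact (1 < p) := ⟨(Fact.out : p.Prime).one_lt⟩
  have hu := modularCyclotomicCharacter.unique Qbar (card_rootsOfUnity_eq_self p)
    (σ : Qbar ≃+* Qbar) (c := 1) (fun t ht => by
      rw [ZMod.val_one, pow_one]
      obtain ⟨i, -, hi⟩ := hζ.eq_pow_of_pow_eq_one
        (show (t : Qbar) ^ p = 1 by
          have := (mem_rootsOfUnity p t).1 ht
          rw [← Units.val_pow_eq_pow_val, this, Units.val_one])
      rw [← hi, map_pow]
      congr 1)
  ext
  exact hu.symm

/-- The value of the cyclotomic character on a primitive root. -/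
lemma apply_eq_pow_cycloChar {ζ : Qbar} (hζ : IsPrimitiveRoot ζ p) (σ : GQ) :
    σ ζ = ζ ^ ((cycloChar p σ : ZMod p)).val := by
  have : NeZero p := ⟨(Fact.out : p.Prime).ne_zero⟩
  have hu : IsUnit ζ := hζ.isUnit (Fact.out : p.Prime).ne_zero
  obtain ⟨t, rfl⟩ := hu
  have ht : t ∈ rootsOfUnity p Qbar := by
    rw [mem_rootsOfUnity]
    ext
    rw [Units.val_pow_eq_pow_val, hζ.pow_eq_one, Units.val_one]
  exact modularCyclotomicCharacter.spec Qbar (card_rootsOfUnity_eq_self p)
    (σ : Qbar ≃+* Qbar) ht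

/-- The cyclotomic character is smooth: it is trivial on the fixing subgroup of `ℚ(ζ_p)`. -/
lemma exists_finite_cycloChar_eq_one :
    ∃ F : IntermediateField ℚ Qbar, FiniteDimensional ℚ F ∧
      ∀ s ∈ F.fixingSubgroup, cycloChar p s = 1 := by
  obtain ⟨ζ, hζ⟩ := exists_isPrimitiveRoot_Qbar p
  have halg : Algebra.IsAlgebraic ℚ Qbar := AlgebraicClosure.isAlgebraic ℚ
  have hint : IsIntegral ℚ ζ := (halg.isAlgebraic ζ).isIntegral
  refine ⟨IntermediateField.adjoin ℚ {ζ}, IntermediateField.adjoin.finiteDimensional hint,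
    fun s hs => cycloChar_eq_one_of_fixes p hζ s ?_⟩
  exact (IntermediateField.mem_fixingSubgroup_iff _ _).1 hs ζ
    (IntermediateField.mem_adjoin_simple_self ℚ ζ)

/-- A root of unity lies in every valuation subring. -/
lemma mem_valuationSubring_of_pow_eq_one (A : ValuationSubring Qbar) {x : Qbar} {n : ℕ}
    (hn : n ≠ 0) (hx : x ^ n = 1) : x ∈ A := by
  rcases A.mem_or_inv_mem x with h | h
  · exact h
  · have h1 : x = (x⁻¹) ^ (n - 1) := by
      have hx0 : x ≠ 0 := by
        rintro rfl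
        rw [zero_pow hn] at hx
        exact zero_ne_one hx
      have h2 : x * x ^ (n - 1) = 1 := by
        rw [← pow_succ', Nat.sub_add_cancel (Nat.one_le_iff_ne_zero.2 hn), hx]
      rw [inv_pow]
      exact (eq_inv_of_mul_eq_one_left h2)
    rw [h1]
    exact pow_mem h _

/-- If `A` lies over a prime `q ≠ p`, then `p` is a unit of `A`. -/
lemma valuation_natCast_eq_one (A : ValuationSubring Qbar) {q : ℕ} (hq : q.Prime)
    (hqp : q ≠ p) (hA : A.LiesOverPrime q) : A.valuation (p : Qbar) = 1 := by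
  have hpA : A.valuation (p : Qbar) ≤ 1 :=
    (A.valuation_le_one_iff _).2 (natCast_mem A p)
  refine le_antisymm hpA (not_lt.1 fun hlt => ?_)
  have hqlt : A.valuation (q : Qbar) < 1 := by
    have hq' : (q : Qbar) ∈ A.nonunits := hA
    rwa [ValuationSubring.mem_nonunits_iff] at hq'
  have hcop : Nat.Coprime p q :=
    (Nat.coprime_primes (Fact.out : p.Prime) hq).2 (Ne.symm hqp)
  have hbez : ((p : ℤ) * Nat.gcdA p q + q * Nat.gcdB p q : ℤ) = 1 := by
    have := Nat.gcd_eq_gcd_ab p q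
    rw [hcop.gcd_eq_one] at this
    exact_mod_cast this.symm
  have hbez' : ((p : Qbar) * (Nat.gcdA p q : ℤ) + q * (Nat.gcdB p q : ℤ) : Qbar) = 1 := by
    exact_mod_cast congrArg (Int.cast : ℤ → Qbar) hbez
  have hint : ∀ z : ℤ, A.valuation (z : Qbar) ≤ 1 := fun z =>
    (A.valuation_le_one_iff _).2 (intCast_mem A z)
  have h1 : A.valuation (1 : Qbar) < 1 := by
    rw [← hbez']
    refine lt_of_le_of_lt (A.valuation.map_add _ _) (max_lt ?_ ?_)
    · rw [map_mul]
      calc A.valuation (p : Qbar) * A.valuation ((Nat.gcdA p q : ℤ) : Qbar)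
          ≤ A.valuation (p : Qbar) * 1 := mul_le_mul_right (hint _) _
        _ < 1 := by rwa [mul_one]
    · rw [map_mul]
      calc A.valuation (q : Qbar) * A.valuation ((Nat.gcdB p q : ℤ) : Qbar)
          ≤ A.valuation (q : Qbar) * 1 := mul_le_mul_right (hint _) _
        _ < 1 := by rwa [mul_one]
  rw [map_one] at h1
  exact lt_irrefl _ h1

/-- For a primitive `p`-th root of unity `μ` and `A` over `q ≠ p`, `1 - μ` is a unit of `A`. -/
lemma valuation_one_sub_eq_one (A : ValuationSubring Qbar) {q : ℕ} (hq : q.Prime)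
    (hqp : q ≠ p) (hA : A.LiesOverPrime q) {μ : Qbar} (hμ : IsPrimitiveRoot μ p) :
    A.valuation (1 - μ) = 1 := by
  classical
  have hp0 : p ≠ 0 := (Fact.out : p.Prime).ne_zero
  have hprod : (p : Qbar) = ∏ η ∈ primitiveRoots p Qbar, (1 - η) := by
    have h1 := Polynomial.cyclotomic_eq_prod_X_sub_primitiveRoots (K := Qbar) hμ
    have h2 := congrArg (Polynomial.eval 1) h1
    rw [Polynomial.eval_one_cyclotomic_prime, Polynomial.eval_prod] at h2
    simpa using h2
  have hle : ∀ η ∈ primitiveRoots p Qbar, A.valuation (1 - η) ≤ 1 := fun η hη => by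
    rw [A.valuation_le_one_iff]
    have hη' : IsPrimitiveRoot η p := (mem_primitiveRoots (Nat.pos_of_ne_zero hp0)).1 hη
    exact sub_mem (one_mem A) (mem_valuationSubring_of_pow_eq_one A hp0 hη'.pow_eq_one)
  have hmem : μ ∈ primitiveRoots p Qbar := (mem_primitiveRoots (Nat.pos_of_ne_zero hp0)).2 hμ
  refine le_antisymm (hle μ hmem) (not_lt.1 fun hlt => ?_)
  have hval : A.valuation (p : Qbar) < 1 := by
    rw [hprod, ← Finset.mul_prod_erase _ _ hmem, map_mul, map_prod]
    calc A.valuation (1 - μ) * ∏ η ∈ (primitiveRoots p Qbar).erase μ, A.valuation (1 - η)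
        ≤ A.valuation (1 - μ) * 1 := by
          refine mul_le_mul_right (Finset.prod_le_one' fun η hη => ?_) _
          exact hle η (Finset.mem_of_mem_erase hη)
      _ < 1 := by rwa [mul_one]
  rw [valuation_natCast_eq_one p A hq hqp hA] at hval
  exact lt_irrefl _ hval

/-- The cyclotomic character is unramified outside `p`. -/
theorem cycloChar_eq_one_of_mem_inertia {q : ℕ} (hq : q.Prime) (hqp : q ≠ p)
    (A : ValuationSubring Qbar) (hA : A.LiesOverPrime q) {g : GQ}
    (hg : g ∈ A.inertiaSubgroupIn ℚ) : cycloChar p g = 1 := by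
  obtain ⟨ζ, hζ⟩ := exists_isPrimitiveRoot_Qbar p
  have hp0 : p ≠ 0 := (Fact.out : p.Prime).ne_zero
  refine cycloChar_eq_one_of_fixes p hζ g ?_
  by_contra hne
  have hζA : ζ ∈ A := mem_valuationSubring_of_pow_eq_one A hp0 hζ.pow_eq_one
  have hnon : g ζ - ζ ∈ A.nonunits := ((Inertia.mem_inertiaSubgroupIn_iff ℚ).1 hg).2 ζ hζA
  rw [ValuationSubring.mem_nonunits_iff] at hnon
  -- `μ := g ζ / ζ` is a nontrivial `p`-th root of unity, hence primitive
  have hζ0 : ζ ≠ 0 := hζ.ne_zero hp0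
  set μ : Qbar := g ζ * ζ⁻¹ with hμdef
  have hμp : μ ^ p = 1 := by
    rw [hμdef, mul_pow, ← map_pow, hζ.pow_eq_one, map_one, one_mul, inv_pow, hζ.pow_eq_one,
      inv_one]
  have hμ1 : μ ≠ 1 := by
    intro h
    apply hne
    have := congrArg (· * ζ) h
    simpa [hμdef, mul_assoc, inv_mul_cancel₀ hζ0] using this
  have hμprim : IsPrimitiveRoot μ p :=
    isPrimitiveRoot_of_mem_nthRootsFinset (Fact.out : p.Prime)
      ((Polynomial.mem_nthRootsFinset (Nat.pos_of_ne_zero hp0) _).2 hμp) hμ1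
  have hunit := valuation_one_sub_eq_one p A hq hqp hA hμprim
  have hinvA : A.valuation ζ⁻¹ ≤ 1 := by
    rw [A.valuation_le_one_iff]
    exact mem_valuationSubring_of_pow_eq_one A hp0
      (show ζ⁻¹ ^ p = 1 by rw [inv_pow, hζ.pow_eq_one, inv_one])
  have hμ' : μ - 1 = (g ζ - ζ) * ζ⁻¹ := by
    rw [hμdef, sub_mul, mul_inv_cancel₀ hζ0]
  have hlt : A.valuation (1 - μ) < 1 := by
    rw [Valuation.map_sub_swap, hμ', map_mul]
    calc A.valuation (g ζ - ζ) * A.valuation ζ⁻¹
        ≤ A.valuation (g ζ - ζ) * 1 := mul_le_mul_right hinvA _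
      _ < 1 := by rwa [mul_one]
  rw [hunit] at hlt
  exact lt_irrefl _ hlt

/-! ### The Tate dual -/

section DualTwist

variable {p}
variable (S : Finset Nat.Primes) (M : Rep (ZMod p) GQ)

instance finite_dualTwist [Module.Finite (ZMod p) M] (χ : GQ →* (ZMod p)ˣ) :
    Module.Finite (ZMod p) (M.dualTwist χ) :=
  inferInstanceAs (Module.Finite (ZMod p) (Module.Dual (ZMod p) M))

/-- The Tate dual of a finite smooth module is smooth. -/
lemma dualTwist_smooth [Module.Finite (ZMod p) M]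
    (hsm : ∀ m : M, ∃ F : IntermediateField ℚ Qbar, FiniteDimensional ℚ F ∧
      ∀ s ∈ F.fixingSubgroup, M.ρ s m = m) :
    ∀ f : M.dualTwist (cycloChar p), ∃ F : IntermediateField ℚ Qbar, FiniteDimensional ℚ F ∧
      ∀ s ∈ F.fixingSubgroup, (M.dualTwist (cycloChar p)).ρ s f = f := by
  intro f
  obtain ⟨F₀, hF₀, hfix⟩ := exists_finite_fixing M hsm
  obtain ⟨F₁, hF₁, hχ⟩ := exists_finite_cycloChar_eq_one p
  have := hF₀
  have := hF₁
  refine ⟨F₀ ⊔ F₁, IntermediateField.finiteDimensional_sup _ _, fun s hs => ?_⟩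
  have hs0 : s ∈ F₀.fixingSubgroup := IntermediateField.fixingSubgroup_antitone le_sup_left hs
  have hs1 : s ∈ F₁.fixingSubgroup := IntermediateField.fixingSubgroup_antitone le_sup_right hs
  rw [Rep.dualTwist_ρ_apply, hχ s hs1, Units.val_one, one_smul]
  ext m
  exact congrArg f (hfix s⁻¹ (inv_mem hs0) m)

/-- The Tate dual of a module unramified outside `S ∋ p` is unramified outside `S`. -/
lemma dualTwist_unramified (hpS : pPrime p ∈ S)
    (hMur : ∀ q : Nat.Primes, q ∉ S → ∀ A : ValuationSubring Qbar,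
      A.LiesOverPrime (q : ℕ) → ∀ g ∈ A.inertiaSubgroupIn ℚ, M.ρ g = 1) :
    ∀ q : Nat.Primes, q ∉ S → ∀ A : ValuationSubring Qbar,
      A.LiesOverPrime (q : ℕ) → ∀ g ∈ A.inertiaSubgroupIn ℚ,
        (M.dualTwist (cycloChar p)).ρ g = 1 := by
  intro q hq A hA g hg
  have hqp : (q : ℕ) ≠ p := by
    intro h
    apply hq
    have : q = pPrime p := Subtype.ext h
    rw [this]
    exact hpS
  have hχ : cycloChar p g = 1 := cycloChar_eq_one_of_mem_inertia p q.2 hqp A hA hg
  have hinv : M.ρ g⁻¹ = 1 := hMur q hq A hA g⁻¹ (inv_mem hg)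
  ext f m
  rw [Rep.dualTwist_ρ_apply, hχ, Units.val_one, one_smul, hinv]
  rfl

/-- The kernel of the action on the Tate dual is a level of `G_{ℚ,S}`. -/
lemma ker_dualTwist_mem_levelsS [Module.Finite (ZMod p) M] (hpS : pPrime p ∈ S)
    (hsm : ∀ m : M, ∃ F : IntermediateField ℚ Qbar, FiniteDimensional ℚ F ∧
      ∀ s ∈ F.fixingSubgroup, M.ρ s m = m)
    (hMur : ∀ q : Nat.Primes, q ∉ S → ∀ A : ValuationSubring Qbar,
      A.LiesOverPrime (q : ℕ) → ∀ g ∈ A.inertiaSubgroupIn ℚ, M.ρ g = 1) :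
    MonoidHom.ker (M.dualTwist (cycloChar p)).ρ ∈ (levelsS S).sets :=
  ker_mem_levelsS (M.dualTwist (cycloChar p)) S (dualTwist_smooth M hsm)
    (dualTwist_unramified S M hpS hMur)

end DualTwist

end Fermat.Agent.CFT.Bridge
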