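/-
PROJECT C, Layer D bridge (helper6): a level of `levelsS S` of index divisible by `p`, for `p ∈ S`.

The field `ℚ(ζ_{p²}) ⊂ ℚ̄` is unramified outside `p` and has degree `p (p - 1)` over `ℚ`; the level
of its normal closure has index divisible by `p`.  This is the hypothesis `hpU₀` of
`A7.ClassFormation.card_torsionP` and `hdvd` of `D.Realize.hg_of_N3_of_forall_NTc`.
-/
import Mathlib
import Fermat.Agent.CFT.Bridge.Levels
import Fermat.Agent.CFT.C7.KummerUnram

set_option autoImplicit false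

open scoped IntermediateField

namespace Fermat.Agent.CFT.Bridge.LevelP

open Fermat.Agent.CFT.Bridge Fermat.Agent.CFT.LC Fermat.Agent.CFT.C7.KummerUnram

local instance isAlgebraicQbar_lp : Algebra.IsAlgebraic ℚ (AlgebraicClosure ℚ) :=
  AlgebraicClosure.isAlgebraic ℚ
local instance isAlgClosureQbar_lp : IsAlgClosure ℚ (AlgebraicClosure ℚ) :=
  ⟨inferInstance, inferInstance⟩
local instance isGaloisQbar_lp : IsGalois ℚ (AlgebraicClosure ℚ) :=
  { to_isSeparable := inferInstance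
    to_normal := IsAlgClosure.normal ℚ (AlgebraicClosure ℚ) }

/-- For `p ∈ S` there is a finite extension of `ℚ` unramified outside `S` of degree divisible by
`p` (namely `ℚ(ζ_{p²})`). -/
theorem exists_isUnramifiedOutside_dvd_finrank (S : Finset Nat.Primes) (p : Nat.Primes)
    (hp : p ∈ S) : ∃ F : IntermediateField ℚ Qbar, F.IsUnramifiedOutside S ∧
      (p : ℕ) ∣ Module.finrank ℚ F := by
  have hp0 : (p : ℕ) ≠ 0 := p.2.ne_zero
  have : NeZero (((p : ℕ) ^ 2 : ℕ) : ℚ) := ⟨Nat.cast_ne_zero.2 (pow_ne_zero 2 hp0)⟩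
  have : NeZero ((p : ℕ) ^ 2) := ⟨pow_ne_zero 2 hp0⟩
  obtain ⟨ζ, hζ⟩ := HasEnoughRootsOfUnity.exists_primitiveRoot Qbar ((p : ℕ) ^ 2)
  refine ⟨ℚ⟮ζ⟯, isUnramifiedOutside_adjoin_of_pow_eq_one ((isSNat_prime hp).pow 2)
    hζ.pow_eq_one, ?_⟩
  have hcyc : IsCyclotomicExtension {(p : ℕ) ^ 2} ℚ ℚ⟮ζ⟯ :=
    hζ.intermediateField_adjoin_isCyclotomicExtension ℚ
  have hfr : Module.finrank ℚ ℚ⟮ζ⟯ = ((p : ℕ) ^ 2).totient :=
    IsCyclotomicExtension.finrank ℚ⟮ζ⟯
      (Polynomial.cyclotomic.irreducible_rat (Nat.pos_of_ne_zero (pow_ne_zero 2 hp0)))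
  rw [hfr, Nat.totient_prime_pow p.2 (by norm_num : 0 < 2)]
  simp only [show 2 - 1 = 1 from rfl, pow_one]
  exact dvd_mul_right _ _

/-- **For `p ∈ S` there is a level of `levelsS S` of index divisible by `p`.** -/
theorem exists_level_dvd_card (S : Finset Nat.Primes) (p : Nat.Primes) (hp : p ∈ S) :
    ∃ U ∈ (levelsS S).sets, (p : ℕ) ∣ Nat.card (GQ ⧸ U) := by
  obtain ⟨F, hF, hpF⟩ := exists_isUnramifiedOutside_dvd_finrank S p hp
  obtain ⟨U, hU, hUle⟩ := exists_level_le hF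
  refine ⟨U, hU, ?_⟩
  have h1 : Module.finrank ℚ F = F.fixingSubgroup.index :=
    IntermediateField.finrank_eq_fixingSubgroup_index Qbar F
  have h2 : F.fixingSubgroup.index ∣ U.index := Subgroup.index_dvd_of_le hUle
  rw [← Subgroup.index_eq_card]
  exact (hpF.trans (h1 ▸ dvd_rfl)).trans h2

end Fermat.Agent.CFT.Bridge.LevelP
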