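/-
Layer D (helper8), D3-global: the prelude's Tate–Shafarevich groups `sha₁ S A` and `sha₂ S M`
are the kernels of the localisation maps in level-constant cohomology of `(GQ, levelsS S)`,
taken over the finite places of `S` only (the archimedean place contributes nothing when `2` is
invertible in the coefficient ring).
-/
import Fermat.Agent.CFT.Bridge.Archimedean

set_option autoImplicit false

namespace Fermat.Agent.CFT.Bridge

open groupCohomology ExtCitation Fermat.Agent.CFT.LC CategoryTheory CategoryTheory.Limits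

/-! ### The level-constant Tate–Shafarevich groups -/

section Defs

variable {k : Type} [CommRing k] (S : Finset Nat.Primes) (M : Rep k GQ)

/-- Localisation in level-constant cohomology at a place of `extArithIndex S`. -/
noncomputable def locLC (v : extArithIndex S) (n : ℕ) :
    H (levelsS S) M n →ₗ[k]
      H (levelsOf (extArithLoc S v)) (Rep.res (extArithLoc S v) M) n :=
  (map (A := M) (B := Rep.res (extArithLoc S v) M)
    (continuous_levelsOf S (extArithLoc S v)) (𝟙 _) n).hom

/-- Localisation in level-constant cohomology at a prime of `S`. -/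
noncomputable def locLCfin (q : ↥S) (n : ℕ) :
    H (levelsS S) M n →ₗ[k]
      H (levelsOf (primeLocalToGlobal q.1)) (Rep.res (primeLocalToGlobal q.1) M) n :=
  (map (A := M) (B := Rep.res (primeLocalToGlobal q.1) M)
    (continuous_levelsOf S (primeLocalToGlobal q.1)) (𝟙 _) n).hom

/-- Classes which are locally trivial at all places of `extArithIndex S`. -/
noncomputable def shaLC (n : ℕ) : Submodule k (H (levelsS S) M n) :=
  ⨅ v : extArithIndex S, LinearMap.ker (locLC S M v n)

/-- Classes which are locally trivial at all primes of `S`. -/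
noncomputable def shaLCfin (n : ℕ) : Submodule k (H (levelsS S) M n) :=
  ⨅ q : ↥S, LinearMap.ker (locLCfin S M q n)

lemma mem_shaLC_iff {n : ℕ} (x : H (levelsS S) M n) :
    x ∈ shaLC S M n ↔ ∀ v : extArithIndex S, locLC S M v n x = 0 := by
  simp only [shaLC, Submodule.mem_iInf, LinearMap.mem_ker]

lemma mem_shaLCfin_iff {n : ℕ} (x : H (levelsS S) M n) :
    x ∈ shaLCfin S M n ↔ ∀ q : ↥S, locLCfin S M q n x = 0 := by
  simp only [shaLCfin, Submodule.mem_iInf, LinearMap.mem_ker]

lemma locLC_inr (q : ↥S) (n : ℕ) : locLC S M (Sum.inr q) n = locLCfin S M q n := rfl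

/-- The archimedean place is invisible when `2` is invertible. -/
lemma shaLC_eq_shaLCfin (h2 : IsUnit (2 : k)) (n : ℕ) :
    shaLC S M (n + 1) = shaLCfin S M (n + 1) := by
  ext x
  rw [mem_shaLC_iff, mem_shaLCfin_iff]
  constructor
  · intro h q
    exact h (Sum.inr q)
  · rintro h (u | q)
    · have hz : IsZero (H (levelsOf archimedeanLoc) (Rep.res archimedeanLoc M) (n + 1)) :=
        isZero_H_archimedean h2 _ n
      have hsub := (ModuleCat.isZero_iff_subsingleton).1 hz
      exact Subsingleton.elim (α := H (levelsOf archimedeanLoc) (Rep.res archimedeanLoc M) (n + 1))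
        _ _
    · exact h q

end Defs

/-! ### `sha₂` -/

section ShaTwo

variable {k : Type} [CommRing k] (S : Finset Nat.Primes) (M : Rep k GQ) {U₀ : Subgroup GQ}
  (hU₀ : U₀ ∈ (levelsS S).sets) (htriv : ∀ s ∈ U₀, ∀ m : M, M.ρ s m = m)

include hU₀ htriv in
lemma h2SEquiv_mem_shaLC_iff (x : continuousH2S S M) :
    h2SEquiv S M hU₀ htriv x ∈ shaLC S M 2 ↔ x ∈ sha₂ S M := by
  rw [mem_shaLC_iff, sha₂, LinearMap.mem_ker]
  constructor
  · intro h
    funext v
    have h1 := h2LocEquiv_locRes₂S S (extArithLoc S v) M hU₀ htriv x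
    have h2 : h2LocEquiv (extArithLoc S v) M (mem_levelsAll_of_mem_levelsS S hU₀) htriv
        (locRes₂S S M (extArithLoc S v) x) = 0 := h1.trans (h v)
    rw [locTotal₂S_apply]
    exact (LinearEquiv.map_eq_zero_iff _).1 h2
  · intro h v
    have h1 := h2LocEquiv_locRes₂S S (extArithLoc S v) M hU₀ htriv x
    have h3 : locRes₂S S M (extArithLoc S v) x = 0 := by
      rw [← locTotal₂S_apply, h]
      rfl
    rw [h3, map_zero] at h1
    exact h1.symm

/-- The prelude's `sha₂ S M` is the level-constant Tate–Shafarevich group in degree `2`. -/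
noncomputable def sha₂Equiv : sha₂ S M ≃ₗ[k] shaLC S M 2 :=
  ((h2SEquiv S M hU₀ htriv).submoduleMap (sha₂ S M)).trans
    (LinearEquiv.ofEq _ _ (by
      ext y
      rw [Submodule.mem_map_equiv, ← h2SEquiv_mem_shaLC_iff S M hU₀ htriv,
        LinearEquiv.apply_symm_apply]))

lemma sha₂Equiv_apply (x : sha₂ S M) :
    (sha₂Equiv S M hU₀ htriv x : H (levelsS S) M 2) = h2SEquiv S M hU₀ htriv x.1 := rfl

end ShaTwo

/-! ### `sha₁` -/

section ShaOne

variable {K : Type} [Field K] (S : Finset Nat.Primes) (A : Rep K GQ) {U₀ : Subgroup GQ}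
  (hU₀ : U₀ ∈ (levelsS S).sets) (htriv : ∀ s ∈ U₀, ∀ m : A, A.ρ s m = m)

include hU₀ htriv in
lemma mem_continuousH1S_iff_range (y : H1 A) :
    y ∈ continuousH1S S A ↔ ∃ x : H (levelsS S) A 1, toAbstract (levelsS S) A 1 x = y := by
  rw [mem_continuousH1S_iff]
  constructor
  · rintro ⟨c, hc, rfl⟩
    have hc' : IsLC₁ (levelsS S) A c.1 := (isLevelConstantS₁_iff S A hU₀ htriv _).1 hc
    refine ⟨H1π' (levelsS S) A ⟨c.1, c.2, (mem_cochains₁_iff _).2 hc'⟩, ?_⟩
    rw [toAbstract_H1π']
  · rintro ⟨x, rfl⟩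
    obtain ⟨f, rfl⟩ := H1π'_surjective (levelsS S) A x
    refine ⟨⟨f.1, f.2.1⟩, ?_, ?_⟩
    · exact (isLevelConstantS₁_iff S A hU₀ htriv _).2 ((mem_cochains₁_iff _).1 f.2.2)
    · rw [toAbstract_H1π']

lemma locRes_toAbstract (v : extArithIndex S) (x : H (levelsS S) A 1) :
    (locRes (extArithLoc S) A v).hom (toAbstract (levelsS S) A 1 x) =
      toAbstract (levelsOf (extArithLoc S v)) (Rep.res (extArithLoc S v) A) 1
        (locLC S A v 1 x) := by
  have h := ConcreteCategory.congr_hom
    (map_toAbstract (A := A) (B := Rep.res (extArithLoc S v) A)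
      (continuous_levelsOf S (extArithLoc S v)) (𝟙 _) 1) x
  rw [ConcreteCategory.comp_apply, ConcreteCategory.comp_apply] at h
  exact h.symm

include hU₀ htriv in
lemma toAbstract_mem_sha₁_iff (x : H (levelsS S) A 1) :
    toAbstract (levelsS S) A 1 x ∈ sha₁ S A ↔ x ∈ shaLC S A 1 := by
  rw [sha₁, Submodule.mem_inf, mem_shaLC_iff, LinearMap.mem_ker]
  constructor
  · rintro ⟨-, h⟩ v
    have h1 : (locRes (extArithLoc S) A v).hom (toAbstract (levelsS S) A 1 x) = 0 := by
      rw [← locTotal_apply, h]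
      rfl
    rw [locRes_toAbstract] at h1
    exact toAbstract_one_injective _ _ (h1.trans (map_zero _).symm)
  · intro h
    refine ⟨(mem_continuousH1S_iff_range S A hU₀ htriv _).2 ⟨x, rfl⟩, ?_⟩
    funext v
    rw [locTotal_apply, locRes_toAbstract, h v, map_zero]
    rfl

/-- The prelude's `sha₁ S A` is the level-constant Tate–Shafarevich group in degree `1`. -/
noncomputable def sha₁Equiv : shaLC S A 1 ≃ₗ[K] sha₁ S A :=
  (Submodule.equivMapOfInjective (toAbstract (levelsS S) A 1).hom
    (toAbstract_one_injective _ _) (shaLC S A 1)).trans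
    (LinearEquiv.ofEq _ _ (by
      ext y
      rw [Submodule.mem_map]
      constructor
      · rintro ⟨x, hx, rfl⟩
        exact (toAbstract_mem_sha₁_iff S A hU₀ htriv x).2 hx
      · intro hy
        obtain ⟨x, rfl⟩ := (mem_continuousH1S_iff_range S A hU₀ htriv y).1 hy.1
        exact ⟨x, (toAbstract_mem_sha₁_iff S A hU₀ htriv x).1 hy, rfl⟩))

lemma sha₁Equiv_apply (x : shaLC S A 1) :
    (sha₁Equiv S A hU₀ htriv x : H1 A) = toAbstract (levelsS S) A 1 x.1 := rfl

end ShaOne

end Fermat.Agent.CFT.Bridge
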